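import Fermat.Agent.S33.Ann
import Fermat.Agent.S32.Wire

/-!
# S33 / Line / Basic : linear algebra over the local ring `T`  (WP **L-BASIC**)

`ρ : GaloisRepAdic T`, `𝔪 = maximalIdeal T`, `V = ρ.V` (free of rank 2).
`ResLine ρ I e₀` : `e₀ ∉ 𝔪 V` and `(ρ τ - 1) V ⊆ T e₀ + 𝔪 V` for `τ ∈ I` (this is what the hypothesis
"the residual representation is ordinary" gives, see `S33/Res.lean`).

PAPER PROOFS.
* `exists_basis_of_not_mem` : the image of `e₀` in `V / 𝔪 V` (a 2-dimensional vector space over the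
  residue field) is non zero, complete it to a basis, lift, Nakayama
  (e.g. `Module.Basis` from `IsLocalRing.basisOfBasisQuotientMaximalIdeal...`, or: take any basis `c`,
  `e₀ = x c₀ + y c₁` with `x` or `y` a unit; if `x` is a unit `(e₀, c₁)` is a basis, otherwise
  `(e₀, c₀)`: this second proof is elementary, use `Module.Basis.mk` or a unit matrix / `Basis.map`).
* `mem_span_of_forall_mem` : write `w = α b₀ + β b₁`; `w ∈ T b₀ + 𝔪 ^ n V` gives `β ∈ 𝔪 ^ n` (coordinates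
  of an element of `𝔪 ^ n V` are in `𝔪 ^ n`); Krull: `⨅ n, 𝔪 ^ n = ⊥`
  (`Ideal.iInf_pow_eq_bot_of_isLocalRing`).
* `ResLine.apply_sub_det_smul_mem` : basis `(e₀, e₁)`, `ρ τ e₀ = a e₀ + c e₁`, `ρ τ e₁ = b e₀ + d e₁`.
  `ResLine` gives `c ∈ 𝔪`, `d - 1 ∈ 𝔪`.  `det = a d - b c ≡ a` mod `𝔪` (`LinearMap.det_toMatrix`,
  `Matrix.det_fin_two`).
-/

set_option autoImplicit false
open IsLocalRing

namespace Fermat.Agent.S33

local notation "GQ" => (AlgebraicClosure ℚ ≃ₐ[ℚ] AlgebraicClosure ℚ)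

variable {T : Type} [CommRing T] [IsLocalRing T]

/-- `𝔪 ^ n V` -/
abbrev mV (ρ : GaloisRepAdic T) (n : ℕ) : Submodule T ρ.V :=
  (maximalIdeal T ^ n) • (⊤ : Submodule T ρ.V)

/-- the residual line. -/
structure ResLine (ρ : GaloisRepAdic T) (I : Subgroup GQ) (e₀ : ρ.V) : Prop where
  not_mem : e₀ ∉ mV ρ 1
  sub_mem : ∀ τ ∈ I, ∀ v : ρ.V, ρ.ρ τ v - v ∈ Submodule.span T {e₀} ⊔ mV ρ 1

/-- coordinates of the elements of `J V` -/
theorem mem_smul_top_iff_repr {R M ι : Type*} [CommRing R] [AddCommGroup M] [Module R M]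
    [Fintype ι] (b : Module.Basis ι R M) (J : Ideal R) (w : M) :
    w ∈ J • (⊤ : Submodule R M) ↔ ∀ i, b.repr w i ∈ J := by
  constructor
  · intro hw i
    induction hw using Submodule.smul_induction_on' with
    | smul r hr n _ =>
      rw [map_smul, Finsupp.smul_apply, smul_eq_mul]
      exact J.mul_mem_right _ hr
    | add x _ y _ hx hy =>
      rw [map_add, Finsupp.add_apply]
      exact J.add_mem hx hy
  · intro hw
    rw [← b.sum_repr w]
    exact Submodule.sum_mem _ fun i _ => Submodule.smul_mem_smul (hw i) Submodule.mem_top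

/-- second coordinate of an element of `T b₀ + J V` -/
theorem repr_one_mem_of_mem_sup {R M : Type*} [CommRing R] [AddCommGroup M] [Module R M]
    (b : Module.Basis (Fin 2) R M) (J : Ideal R) {w : M}
    (hw : w ∈ Submodule.span R {b 0} ⊔ J • (⊤ : Submodule R M)) : b.repr w 1 ∈ J := by
  obtain ⟨y, hy, z, hz, rfl⟩ := Submodule.mem_sup.mp hw
  obtain ⟨t, rfl⟩ := Submodule.mem_span_singleton.mp hy
  rw [map_add, Finsupp.add_apply, map_smul, Finsupp.smul_apply, b.repr_self,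
    Finsupp.single_eq_of_ne (by decide), smul_zero, zero_add]
  exact (mem_smul_top_iff_repr b J z).mp hz 1

theorem exists_basis_of_not_mem (ρ : GaloisRepAdic T) {e₀ : ρ.V} (h : e₀ ∉ mV ρ 1) :
    ∃ b : Module.Basis (Fin 2) T ρ.V, b 0 = e₀ := by
  let c : Module.Basis (Fin 2) T ρ.V := Module.finBasisOfFinrankEq T ρ.V ρ.finrank_eq
  have key : ∀ v : Fin 2 → ρ.V, v 0 = e₀ → IsUnit (c.det v) →
      ∃ b : Module.Basis (Fin 2) T ρ.V, b 0 = e₀ := by
    intro v hv hu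
    obtain ⟨hli, hsp⟩ := c.is_basis_iff_det.mpr hu
    exact ⟨Module.Basis.mk hli hsp.ge, by rw [Module.Basis.mk_apply, hv]⟩
  by_cases hx : IsUnit (c.repr e₀ 0)
  · refine key ![e₀, c 1] rfl ?_
    rw [Module.Basis.det_apply, Matrix.det_fin_two]
    simp only [Module.Basis.toMatrix_apply, Matrix.cons_val_zero, Matrix.cons_val_one,
      Module.Basis.repr_self]
    rw [Finsupp.single_eq_same, Finsupp.single_eq_of_ne (by decide), mul_one, zero_mul, sub_zero]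
    exact hx
  · by_cases hy : IsUnit (c.repr e₀ 1)
    · refine key ![e₀, c 0] rfl ?_
      rw [Module.Basis.det_apply, Matrix.det_fin_two]
      simp only [Module.Basis.toMatrix_apply, Matrix.cons_val_zero, Matrix.cons_val_one,
        Module.Basis.repr_self]
      rw [Finsupp.single_eq_same, Finsupp.single_eq_of_ne (by decide), mul_zero, one_mul,
        zero_sub]
      exact hy.neg
    · exfalso
      apply h
      rw [mV, pow_one, mem_smul_top_iff_repr c]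
      intro i
      fin_cases i
      · exact (mem_maximalIdeal _).mpr hx
      · exact (mem_maximalIdeal _).mpr hy

theorem mem_span_of_forall_mem [IsNoetherianRing T] (ρ : GaloisRepAdic T)
    (b : Module.Basis (Fin 2) T ρ.V) {w : ρ.V}
    (h : ∀ n : ℕ, w ∈ Submodule.span T {b 0} ⊔ mV ρ n) : w ∈ Submodule.span T {b 0} := by
  have h1 : b.repr w 1 ∈ (⨅ n : ℕ, maximalIdeal T ^ n : Ideal T) := by
    rw [Submodule.mem_iInf]
    exact fun n => repr_one_mem_of_mem_sup b _ (h n)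
  rw [Ideal.iInf_pow_eq_bot_of_isLocalRing _ (maximalIdeal.isMaximal T).ne_top,
    Submodule.mem_bot] at h1
  rw [← b.sum_repr w, Fin.sum_univ_two, h1, zero_smul, add_zero]
  exact Submodule.smul_mem _ _ (Submodule.mem_span_singleton_self _)

theorem ResLine.apply_sub_det_smul_mem {ρ : GaloisRepAdic T} {I : Subgroup GQ} {e₀ : ρ.V}
    (h : ResLine ρ I e₀) {τ : GQ} (hτ : τ ∈ I) :
    ρ.ρ τ e₀ - LinearMap.det (ρ.ρ τ) • e₀ ∈ mV ρ 1 := by
  obtain ⟨b, rfl⟩ := exists_basis_of_not_mem ρ h.not_mem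
  have hc : b.repr (ρ.ρ τ (b 0)) 1 ∈ maximalIdeal T := by
    have := repr_one_mem_of_mem_sup b _ (h.sub_mem τ hτ (b 0))
    rwa [pow_one, map_sub, Finsupp.sub_apply, b.repr_self, Finsupp.single_eq_of_ne (by decide),
      sub_zero] at this
  have hd : b.repr (ρ.ρ τ (b 1)) 1 - 1 ∈ maximalIdeal T := by
    have := repr_one_mem_of_mem_sup b _ (h.sub_mem τ hτ (b 1))
    rwa [pow_one, map_sub, Finsupp.sub_apply, b.repr_self, Finsupp.single_eq_same] at this
  have hdet : LinearMap.det (ρ.ρ τ) = b.repr (ρ.ρ τ (b 0)) 0 * b.repr (ρ.ρ τ (b 1)) 1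
      - b.repr (ρ.ρ τ (b 1)) 0 * b.repr (ρ.ρ τ (b 0)) 1 := by
    rw [← LinearMap.det_toMatrix b, Matrix.det_fin_two]
    simp only [LinearMap.toMatrix_apply]
  rw [mV, pow_one, mem_smul_top_iff_repr b]
  intro i
  fin_cases i
  · simp only [Fin.zero_eta, map_sub, map_smul, Finsupp.sub_apply, Finsupp.smul_apply,
      b.repr_self, Finsupp.single_eq_same, smul_eq_mul, mul_one]
    rw [hdet]
    have : b.repr (ρ.ρ τ (b 0)) 0 - (b.repr (ρ.ρ τ (b 0)) 0 * b.repr (ρ.ρ τ (b 1)) 1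
        - b.repr (ρ.ρ τ (b 1)) 0 * b.repr (ρ.ρ τ (b 0)) 1)
        = -(b.repr (ρ.ρ τ (b 0)) 0) * (b.repr (ρ.ρ τ (b 1)) 1 - 1)
          + b.repr (ρ.ρ τ (b 1)) 0 * b.repr (ρ.ρ τ (b 0)) 1 := by ring
    rw [this]
    exact Ideal.add_mem _ (Ideal.mul_mem_left _ _ hd) (Ideal.mul_mem_left _ _ hc)
  · simp only [Fin.mk_one, map_sub, map_smul, Finsupp.sub_apply, Finsupp.smul_apply,
      b.repr_self, smul_eq_mul]
    rw [Finsupp.single_eq_of_ne (by decide), mul_zero, sub_zero]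
    exact hc

theorem isUnit_det_sub_one {x : T} (hx : residue T x ≠ 1) : IsUnit (x - 1) := by
  by_contra hu
  apply hx
  have : x - 1 ∈ maximalIdeal T := (mem_maximalIdeal _).mpr hu
  rw [← residue_eq_zero_iff, map_sub, map_one, sub_eq_zero] at this
  exact this

/-- if `det ρ δ ≢ 1` then `ρ δ e₀ - e₀ ∉ 𝔪 V` (it is `≡ (det - 1) e₀`, a unit multiple of `e₀`). -/
theorem ResLine.apply_sub_not_mem {ρ : GaloisRepAdic T} {I : Subgroup GQ} {e₀ : ρ.V}
    (h : ResLine ρ I e₀) {δ : GQ} (hδ : δ ∈ I) (hδ1 : residue T (LinearMap.det (ρ.ρ δ)) ≠ 1) :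
    ρ.ρ δ e₀ - e₀ ∉ mV ρ 1 := by
  intro hmem
  obtain ⟨u, hu⟩ := isUnit_det_sub_one hδ1
  have h1 := h.apply_sub_det_smul_mem hδ
  have h2 : (u : T) • e₀ ∈ mV ρ 1 := by
    have : (u : T) • e₀ = (ρ.ρ δ e₀ - e₀) - (ρ.ρ δ e₀ - LinearMap.det (ρ.ρ δ) • e₀) := by
      rw [hu, sub_smul, one_smul]; abel
    rw [this]
    exact Submodule.sub_mem _ hmem h1
  apply h.not_mem
  have h3 := Submodule.smul_mem _ ((u⁻¹ : Tˣ) : T) h2
  rwa [smul_smul, Units.inv_mul, one_smul] at h3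

/-- `e₀ ∈ T (ρ δ e₀ - e₀) + 𝔪 V`. -/
theorem ResLine.mem_span_apply_sub {ρ : GaloisRepAdic T} {I : Subgroup GQ} {e₀ : ρ.V}
    (h : ResLine ρ I e₀) {δ : GQ} (hδ : δ ∈ I) (hδ1 : residue T (LinearMap.det (ρ.ρ δ)) ≠ 1) :
    e₀ ∈ Submodule.span T {ρ.ρ δ e₀ - e₀} ⊔ mV ρ 1 := by
  obtain ⟨u, hu⟩ := isUnit_det_sub_one hδ1
  have h1 := h.apply_sub_det_smul_mem hδ
  have h2 : (u : T) • e₀ ∈ Submodule.span T {ρ.ρ δ e₀ - e₀} ⊔ mV ρ 1 := by
    have : (u : T) • e₀ = (ρ.ρ δ e₀ - e₀) + -(ρ.ρ δ e₀ - LinearMap.det (ρ.ρ δ) • e₀) := by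
      rw [hu, sub_smul, one_smul]; abel
    rw [this]
    exact Submodule.add_mem_sup (Submodule.mem_span_singleton_self _) (Submodule.neg_mem _ h1)
  have h3 := Submodule.smul_mem _ ((u⁻¹ : Tˣ) : T) h2
  rwa [smul_smul, Units.inv_mul, one_smul] at h3

end Fermat.Agent.S33
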