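import Fermat.Agent.S33.Line.Basic

/-!
# S33 / Line / Fil : `δ - 1` is injective on an `NT` subgroup of `V / 𝔪 ^ n V`  (WP **L-FIL**)

`Lev ρ n = V / 𝔪 ^ n V` with the action `S32.levelDMA ρ (𝔪 ^ n)` of `G_ℚ`
(`σ • mk v = mk (ρ σ v)`, `S32.levelAction_mk`).

PAPER PROOF of `eq_zero_of_fixed`.  `ψ τ := residue (det (ρ τ))`, `I₁ := {u ∈ I | ψ u = 1}`.
Filtration of `V` by `T`-submodules: `F (2 i) = 𝔪 ^ i V`, `F (2 i + 1) = 𝔪 ^ i (T e₀ + 𝔪 V)`.
(1) For `u ∈ I₁` : `(ρ u - 1) V ⊆ T e₀ + 𝔪 V` (`ResLine.sub_mem`) and `(ρ u - 1) e₀ ∈ 𝔪 V`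
    (`ResLine.apply_sub_det_smul_mem` and `det (ρ u) - 1 ∈ 𝔪`), `(ρ u - 1) 𝔪 V ⊆ 𝔪 (T e₀ + 𝔪 V)` by
    linearity.  Hence `(ρ u - 1) F j ⊆ F (j + 1)` for all `j` (`Submodule.smul_induction_on`).
(2) Every `τ ∈ I` is `τ = u * δ ^ i` with `u ∈ I₁` (`hgen`, `u := τ * (δ ^ i)⁻¹`; `det` is
    multiplicative: `LinearMap.det_comp`/`map_mul`), so `τ • y = u • y` because `δ • y = y`.
(3) `Z := AddSubgroup.closure {τ • y | τ ∈ I}`: it is `I`-stable, `Z ≤ L`, so `Z ≤ aug I Z` (`NT`).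
(4) By induction on `j` : `Z ≤ image of F j in Lev ρ n`.  `j = 0` trivial.  Step: it suffices
    (`aug_le`, then `Z ≤ aug I Z`) that `τ • z - z ∈ image (F (j + 1))` for `τ ∈ I`, `z ∈ Z`; by
    `AddSubgroup.closure_induction` on `z` reduce to `z = τ' • y`; `τ • τ' • y - τ' • y =
    (u₁ • y - y) - (u₂ • y - y)` with `u₁ u₂ ∈ I₁` by (2), and `y ∈ Z ≤ image (F j)`, use (1).
(5) `F (2 n) = 𝔪 ^ n V` has image `0`: `y ∈ Z = 0`.
-/

set_option autoImplicit false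
open IsLocalRing

namespace Fermat.Agent.S33

local notation "GQ" => (AlgebraicClosure ℚ ≃ₐ[ℚ] AlgebraicClosure ℚ)

variable {T : Type} [CommRing T] [IsLocalRing T]

/-- `V / 𝔪 ^ n V` -/
abbrev Lev (ρ : GaloisRepAdic T) (n : ℕ) : Type := ρ.V ⧸ mV ρ n

attribute [local instance] Fermat.Agent.S32.levelDMA

theorem eq_zero_of_fixed (ρ : GaloisRepAdic T) (I : Subgroup GQ) (n : ℕ) {e₀ : ρ.V}
    (hres : ResLine ρ I e₀) {δ : GQ} (hδ : δ ∈ I)
    (hgen : ∀ τ ∈ I, ∃ i : ℕ,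
      residue T (LinearMap.det (ρ.ρ τ)) = residue T (LinearMap.det (ρ.ρ δ)) ^ i)
    {L : AddSubgroup (Lev ρ n)} (hL : NT I L) (hLs : Stable I L) {y : Lev ρ n} (hy : y ∈ L)
    (hfix : δ • y = y) : y = 0 := by
  classical
  -- the character `ψ`
  let ψ : GQ →* ResidueField T :=
    ((residue T : T →+* ResidueField T) : T →* ResidueField T).comp (LinearMap.det.comp ρ.ρ)
  have hψ : ∀ τ, ψ τ = residue T (LinearMap.det (ρ.ρ τ)) := fun _ => rfl
  have hmk : ∀ (σ : GQ) (v : ρ.V),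
      σ • (Submodule.Quotient.mk v : Lev ρ n) = Submodule.Quotient.mk (ρ.ρ σ v) := fun _ _ => rfl
  -- (2)
  have hpow : ∀ i : ℕ, (δ ^ i) • y = y := by
    intro i
    induction i with
    | zero => rw [pow_zero, one_smul]
    | succ k ih => rw [pow_succ, mul_smul, hfix, ih]
  have h2 : ∀ τ ∈ I, ∃ u ∈ I, ψ u = 1 ∧ τ • y = u • y := by
    intro τ hτ
    obtain ⟨i, hi⟩ := hgen τ hτ
    refine ⟨τ * (δ ^ i)⁻¹, I.mul_mem hτ (I.inv_mem (I.pow_mem hδ i)), ?_, ?_⟩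
    · have hu : IsUnit (ψ (δ ^ i)) := (Group.isUnit (δ ^ i)).map ψ
      apply hu.mul_right_cancel
      rw [← map_mul, inv_mul_cancel_right, one_mul, map_pow, hψ, hψ, hi]
    · rw [mul_smul, inv_smul_eq_iff.2 (hpow i).symm]
  -- (3)
  let Z : AddSubgroup (Lev ρ n) := AddSubgroup.closure {w | ∃ τ ∈ I, w = τ • y}
  have hyZ : y ∈ Z := AddSubgroup.subset_closure ⟨1, I.one_mem, (one_smul _ _).symm⟩
  have hZL : Z ≤ L := by
    rw [AddSubgroup.closure_le]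
    rintro _ ⟨τ, hτ, rfl⟩
    exact hLs τ hτ y hy
  have hZs : Stable I Z := by
    intro σ hσ z hz
    induction hz using AddSubgroup.closure_induction with
    | mem w hw =>
      obtain ⟨τ, hτ, rfl⟩ := hw
      exact AddSubgroup.subset_closure ⟨σ * τ, I.mul_mem hσ hτ, (mul_smul _ _ _).symm⟩
    | zero => rw [smul_zero]; exact Z.zero_mem
    | add a b _ _ ha hb => rw [smul_add]; exact Z.add_mem ha hb
    | neg a _ ha => rw [smul_neg]; exact Z.neg_mem ha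
  have hZaug : Z ≤ aug I Z := hL Z hZL hZs
  -- (4) one step
  have step : ∀ P Q : Submodule T ρ.V,
      (∀ u ∈ I, ψ u = 1 → ∀ v ∈ P, ρ.ρ u v - v ∈ Q) →
      (∃ v ∈ P, (Submodule.Quotient.mk v : Lev ρ n) = y) →
      ∃ v ∈ Q, (Submodule.Quotient.mk v : Lev ρ n) = y := by
    rintro P Q hPQ ⟨v, hvP, hvy⟩
    let Q' : AddSubgroup (Lev ρ n) := (Q.map (Submodule.mkQ (mV ρ n))).toAddSubgroup
    have hu : ∀ u ∈ I, ψ u = 1 → u • y - y ∈ Q' := by
      intro u hu hu1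
      refine ⟨ρ.ρ u v - v, hPQ u hu hu1 v hvP, ?_⟩
      rw [← hvy, hmk]
      rfl
    have h3 : aug I Z ≤ Q' := by
      refine aug_le fun τ hτ z hz => ?_
      induction hz using AddSubgroup.closure_induction with
      | mem w hw =>
        obtain ⟨τ', hτ', rfl⟩ := hw
        obtain ⟨u₁, hu₁, hu₁1, e₁⟩ := h2 (τ * τ') (I.mul_mem hτ hτ')
        obtain ⟨u₂, hu₂, hu₂1, e₂⟩ := h2 τ' hτ'
        rw [← mul_smul, e₁, e₂]
        have := Q'.sub_mem (hu u₁ hu₁ hu₁1) (hu u₂ hu₂ hu₂1)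
        rwa [sub_sub_sub_cancel_right] at this
      | zero => rw [smul_zero, sub_zero]; exact Q'.zero_mem
      | add a b _ _ ha hb =>
        have := Q'.add_mem ha hb
        rwa [smul_add, add_sub_add_comm]
      | neg a _ ha =>
        have := Q'.neg_mem ha
        rwa [neg_sub', ← smul_neg] at this
    obtain ⟨w, hw, hwy⟩ := h3 (hZaug hyZ)
    exact ⟨w, hw, hwy⟩
  -- (1)
  let W : Submodule T ρ.V := Submodule.span T {e₀} ⊔ mV ρ 1
  have hlin : ∀ (u : GQ) (J : Ideal T) (P Q : Submodule T ρ.V),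
      (∀ v ∈ P, ρ.ρ u v - v ∈ Q) → ∀ v ∈ J • P, ρ.ρ u v - v ∈ J • Q := by
    intro u J P Q h v hv
    have h1 : P.map (ρ.ρ u - 1) ≤ Q := by
      rintro _ ⟨w, hw, rfl⟩
      exact h w hw
    have h2 : (J • P).map (ρ.ρ u - 1) ≤ J • Q := by
      rw [Submodule.map_smul'']
      exact Submodule.smul_mono le_rfl h1
    exact h2 ⟨v, hv, rfl⟩
  have h1a : ∀ u ∈ I, ψ u = 1 → ∀ v ∈ (⊤ : Submodule T ρ.V), ρ.ρ u v - v ∈ W :=
    fun u hu _ v _ => hres.sub_mem u hu v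
  have h1b : ∀ u ∈ I, ψ u = 1 → ∀ v ∈ W, ρ.ρ u v - v ∈ mV ρ 1 := by
    intro u hu hu1 v hv
    obtain ⟨a, ha, b, hb, rfl⟩ := Submodule.mem_sup.1 hv
    obtain ⟨t, rfl⟩ := Submodule.mem_span_singleton.1 ha
    have e1 : ρ.ρ u e₀ - e₀ ∈ mV ρ 1 := by
      have h3 := hres.apply_sub_det_smul_mem hu
      have h4 : LinearMap.det (ρ.ρ u) - 1 ∈ maximalIdeal T := by
        rw [← residue_eq_zero_iff, map_sub, map_one, ← hψ, hu1, sub_self]
      have h5 : (LinearMap.det (ρ.ρ u) - 1) • e₀ ∈ mV ρ 1 :=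
        Submodule.smul_mem_smul (by rwa [pow_one]) Submodule.mem_top
      have := (mV ρ 1).add_mem h3 h5
      rwa [sub_smul, one_smul, sub_add_sub_cancel] at this
    have e2 : ρ.ρ u b - b ∈ mV ρ 1 :=
      hlin u _ ⊤ ⊤ (fun _ _ => Submodule.mem_top) b hb
    have := (mV ρ 1).add_mem ((mV ρ 1).smul_mem t e1) e2
    rwa [smul_sub, ← map_smul, ← add_sub_add_comm, ← map_add] at this
  -- (4), (5)
  have main : ∀ i : ℕ, ∃ v ∈ mV ρ i, (Submodule.Quotient.mk v : Lev ρ n) = y := by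
    intro i
    induction i with
    | zero =>
      obtain ⟨v, hv⟩ := Submodule.Quotient.mk_surjective _ y
      exact ⟨v, by
        show v ∈ maximalIdeal T ^ 0 • (⊤ : Submodule T ρ.V)
        rw [pow_zero, Ideal.one_eq_top, Submodule.top_smul]; exact Submodule.mem_top, hv⟩
    | succ k ih =>
      have s1 := step (mV ρ k) (maximalIdeal T ^ k • W)
        (fun u hu hu1 => hlin u _ ⊤ W (h1a u hu hu1)) ih
      have s2 := step (maximalIdeal T ^ k • W) (maximalIdeal T ^ k • mV ρ 1)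
        (fun u hu hu1 => hlin u _ W _ (h1b u hu hu1)) s1
      obtain ⟨v, hv, hvy⟩ := s2
      refine ⟨v, ?_, hvy⟩
      rwa [← Submodule.mul_smul, pow_one, ← pow_succ] at hv
  obtain ⟨v, hv, hvy⟩ := main n
  rw [← hvy]
  exact (Submodule.Quotient.mk_eq_zero _).2 hv

end Fermat.Agent.S33
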