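import Fermat.Agent.S33.Line.Fil

/-!
# S33 / Line / Level : the line modulo `𝔪 ^ n`  (WP **L-LEVEL**)

PAPER PROOF of `level_line`.  `n = 0` trivial (`mV ρ 0 = ⊤`).  Let `n ≥ 1`, `Vn := Lev ρ n` (finite:
`S32.finite_level`, `T / 𝔪 ^ n` is finite because `T` is noetherian with finite residue field),
`v₀ := ρ δ e₀ - e₀`, `N x := δ • x - x` on `Vn` (additive and `T`-linear).
(0) `Ln := aug I ⊤ ≤ M₀` (`M₀` from `hord`), so `NT I Ln` (`NT.mono`); `Ln` is `I`-stable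
    (`σ • (τ • x - x) = (σ τ σ⁻¹) • (σ • x) - σ • x`), stable under `T`
    (`t • (τ • x - x) = τ • (t • x) - t • x`), `N Vn ⊆ Ln`, and `Ln ⊆ T (mk e₀) + 𝔪 Vn` (`ResLine.sub_mem`).
(1) `N` is injective on `Ln` (`eq_zero_of_fixed`), so `N : Ln → Ln` is bijective (finite).
(2) Let `(e₀, e₁)` be a basis of `V` (`exists_basis_of_not_mem`).  `N (mk e₁) ∈ Ln`, so
    `N (mk e₁) = N l` with `l ∈ Ln`; `e₁' := mk e₁ - l` satisfies `N e₁' = 0`.
(3) `mk v₀` and `e₁'` generate `Vn` over `T` : modulo `𝔪` they generate (`e₀ ∈ T v₀ + 𝔪 V` by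
    `ResLine.mem_span_apply_sub`; `l ∈ T mk e₀ + 𝔪 Vn`), Nakayama
    (`Submodule.le_of_le_smul_of_le_jacobson_bot` or `Submodule.sup_smul_eq_sup_smul_of_le_smul_of_le_jacobson`…).
(4) So `N Vn ⊆ T N (mk v₀)`, `Ln = N Ln ⊆ T N (mk v₀) ⊆ Ln`.  `mk v₀ = N (mk e₀) ∈ Ln`, so
    `mk v₀ = c N (mk v₀)`; `c` is a unit, otherwise `v₀ ∈ 𝔪 V` (`ResLine.apply_sub_not_mem`, `n ≥ 1`).
    Hence `Ln = T mk v₀`, which is the claim.
-/

set_option autoImplicit false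
open IsLocalRing

namespace Fermat.Agent.S33

local notation "GQ" => (AlgebraicClosure ℚ ≃ₐ[ℚ] AlgebraicClosure ℚ)

variable {T : Type} [CommRing T] [IsLocalRing T]

attribute [local instance] Fermat.Agent.S32.levelDMA

theorem level_line [IsNoetherianRing T] [Finite (ResidueField T)] (ρ : GaloisRepAdic T)
    (I : Subgroup GQ) (n : ℕ) (hord : Ord I (Lev ρ n)) {e₀ : ρ.V}
    (hres : ResLine ρ I e₀) {δ : GQ} (hδ : δ ∈ I)
    (hδ1 : residue T (LinearMap.det (ρ.ρ δ)) ≠ 1)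
    (hgen : ∀ τ ∈ I, ∃ i : ℕ,
      residue T (LinearMap.det (ρ.ρ τ)) = residue T (LinearMap.det (ρ.ρ δ)) ^ i) :
    ∀ τ ∈ I, ∀ v : ρ.V, ρ.ρ τ v - v ∈ Submodule.span T {ρ.ρ δ e₀ - e₀} ⊔ mV ρ n := by
  classical
  rcases Nat.eq_zero_or_pos n with rfl | hn
  · intro τ _ v
    have h0 : mV ρ 0 = ⊤ := by
      show maximalIdeal T ^ 0 • (⊤ : Submodule T ρ.V) = ⊤
      rw [pow_zero, Ideal.one_eq_top, Submodule.top_smul]
    rw [h0, sup_top_eq]
    exact Submodule.mem_top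
  have : Finite (T ⧸ maximalIdeal T) := ‹Finite (ResidueField T)›
  have : Finite (T ⧸ maximalIdeal T ^ n) :=
    Ideal.finite_quotient_pow (IsNoetherian.noetherian _) n
  have : Finite (Lev ρ n) := S32.finite_level ρ (maximalIdeal T ^ n)
  obtain ⟨M₀, hM₀s, hM₀t, hM₀n⟩ := hord
  let A : AddSubgroup (Lev ρ n) := aug I ⊤
  have hAM : A ≤ M₀ := aug_le fun τ hτ z _ => hM₀t τ hτ z
  have hAn : NT I A := hM₀n.mono hAM
  have hmemA : ∀ τ ∈ I, ∀ x : Lev ρ n, τ • x - x ∈ A :=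
    fun τ hτ x => smul_sub_mem_aug hτ (AddSubgroup.mem_top x)
  have hAs : Stable I A := by
    intro σ hσ z hz
    have := A.add_mem (hmemA σ hσ z) hz
    rwa [sub_add_cancel] at this
  let Nl : Lev ρ n →ₗ[T] Lev ρ n := ρ.levelAction (maximalIdeal T ^ n) δ - LinearMap.id
  have hNl : ∀ x, Nl x = δ • x - x := fun _ => rfl
  -- (1)
  have hinj : ∀ a ∈ A, Nl a = 0 → a = 0 := fun a ha h =>
    eq_zero_of_fixed ρ I n hres hδ hgen hAn hAs ha (sub_eq_zero.1 h)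
  have hsurj : ∀ a ∈ A, ∃ l ∈ A, Nl l = a := by
    let Nn : A →+ A :=
      { toFun := fun w => ⟨Nl w.1, hmemA δ hδ w.1⟩
        map_zero' := Subtype.ext (map_zero Nl)
        map_add' := fun a b => Subtype.ext (map_add Nl a.1 b.1) }
    have hi : Function.Injective Nn := by
      rw [injective_iff_map_eq_zero]
      intro w hw
      exact Subtype.ext (hinj w.1 w.2 (congrArg Subtype.val hw))
    intro a ha
    obtain ⟨w, hw⟩ := (Finite.injective_iff_surjective.1 hi) ⟨a, ha⟩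
    exact ⟨w.1, w.2, congrArg Subtype.val hw⟩
  -- basis
  obtain ⟨b, hb⟩ := exists_basis_of_not_mem ρ hres.not_mem
  let mk : ρ.V →ₗ[T] Lev ρ n := Submodule.mkQ (mV ρ n)
  have hmk : ∀ (σ : GQ) (v : ρ.V), σ • mk v = mk (ρ.ρ σ v) := fun _ _ => rfl
  have hmks : Function.Surjective mk := Submodule.mkQ_surjective _
  obtain ⟨l, hlA, hl⟩ := hsurj (Nl (mk (b 1))) (hmemA δ hδ _)
  have he₁' : Nl (mk (b 1) - l) = 0 := by rw [map_sub, hl, sub_self]
  -- `A ⊆ T mk e₀ + 𝔪 Vn`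
  have hmkm : ∀ m ∈ mV ρ 1, mk m ∈ maximalIdeal T • (⊤ : Submodule T (Lev ρ n)) := by
    intro m hm
    have h1 : (mV ρ 1).map mk ≤ maximalIdeal T • (⊤ : Submodule T (Lev ρ n)) := by
      rw [Submodule.map_smul'', pow_one]
      exact Submodule.smul_mono le_rfl le_top
    exact h1 ⟨m, hm, rfl⟩
  have hA1 : A ≤ (Submodule.span T {mk e₀} ⊔
      maximalIdeal T • (⊤ : Submodule T (Lev ρ n))).toAddSubgroup := by
    refine aug_le fun τ hτ z _ => ?_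
    obtain ⟨v, rfl⟩ := hmks z
    obtain ⟨a, ha, m, hm, e⟩ := Submodule.mem_sup.1 (hres.sub_mem τ hτ v)
    obtain ⟨t, rfl⟩ := Submodule.mem_span_singleton.1 ha
    rw [Submodule.mem_toAddSubgroup, hmk, ← map_sub, ← e, map_add, map_smul]
    exact Submodule.add_mem_sup
      (Submodule.smul_mem _ _ (Submodule.mem_span_singleton_self _)) (hmkm m hm)
  -- (3)
  let S : Submodule T (Lev ρ n) := Submodule.span T {mk (ρ.ρ δ e₀ - e₀), mk (b 1) - l}
  have hS0 : mk e₀ ∈ S ⊔ maximalIdeal T • (⊤ : Submodule T (Lev ρ n)) := by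
    obtain ⟨a, ha, m, hm, e⟩ := Submodule.mem_sup.1 (hres.mem_span_apply_sub hδ hδ1)
    obtain ⟨t, rfl⟩ := Submodule.mem_span_singleton.1 ha
    rw [← e, map_add, map_smul]
    exact Submodule.add_mem_sup
      (Submodule.smul_mem _ _ (Submodule.subset_span (Set.mem_insert _ _))) (hmkm m hm)
  have hS1 : mk (b 1) ∈ S ⊔ maximalIdeal T • (⊤ : Submodule T (Lev ρ n)) := by
    have h1 : mk (b 1) - l ∈ S ⊔ maximalIdeal T • (⊤ : Submodule T (Lev ρ n)) :=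
      Submodule.mem_sup_left (Submodule.subset_span (Set.mem_insert_of_mem _ rfl))
    have h2 : l ∈ S ⊔ maximalIdeal T • (⊤ : Submodule T (Lev ρ n)) := by
      have h3 : Submodule.span T {mk e₀} ⊔ maximalIdeal T • (⊤ : Submodule T (Lev ρ n)) ≤
          S ⊔ maximalIdeal T • (⊤ : Submodule T (Lev ρ n)) :=
        sup_le ((Submodule.span_singleton_le_iff_mem _ _).2 hS0) le_sup_right
      exact h3 (hA1 hlA)
    have := Submodule.add_mem _ h1 h2
    rwa [sub_add_cancel] at this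
  have htop : (⊤ : Submodule T (Lev ρ n)) ≤ S := by
    apply Submodule.le_of_le_smul_of_le_jacobson_bot (I := maximalIdeal T) Module.Finite.fg_top
      (IsLocalRing.maximalIdeal_le_jacobson _)
    intro x _
    obtain ⟨v, rfl⟩ := hmks x
    rw [← b.sum_repr v, Fin.sum_univ_two, map_add, map_smul, map_smul, hb]
    exact Submodule.add_mem _ (Submodule.smul_mem _ _ hS0) (Submodule.smul_mem _ _ hS1)
  -- (4)
  have hN : ∀ x, ∃ t : T, Nl x = t • Nl (mk (ρ.ρ δ e₀ - e₀)) := by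
    intro x
    obtain ⟨α, β, rfl⟩ := Submodule.mem_span_pair.1 (htop (Submodule.mem_top : x ∈ ⊤))
    exact ⟨α, by rw [map_add, map_smul, map_smul, he₁', smul_zero, add_zero]⟩
  have hA2 : ∀ a ∈ A, ∃ t : T, a = t • Nl (mk (ρ.ρ δ e₀ - e₀)) := by
    intro a ha
    obtain ⟨l, _, rfl⟩ := hsurj a ha
    exact hN l
  have hv₀A : mk (ρ.ρ δ e₀ - e₀) ∈ A := hmemA δ hδ (mk e₀)
  obtain ⟨c, hc⟩ := hA2 _ hv₀A
  have hle : mV ρ n ≤ mV ρ 1 :=
    Submodule.smul_mono_left (Ideal.pow_le_pow_right hn)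
  have hcu : IsUnit c := by
    by_contra hcu
    have hcm : c ∈ maximalIdeal T := (mem_maximalIdeal c).2 hcu
    apply hres.apply_sub_not_mem hδ hδ1
    obtain ⟨w, hw⟩ := hmks (Nl (mk (ρ.ρ δ e₀ - e₀)))
    rw [← hw, ← map_smul] at hc
    have h1 : (ρ.ρ δ e₀ - e₀) - c • w ∈ mV ρ n := (Submodule.Quotient.eq _).1 hc
    have h2 : c • w ∈ mV ρ 1 := Submodule.smul_mem_smul (by rwa [pow_one]) Submodule.mem_top
    have := (mV ρ 1).add_mem (hle h1) h2
    rwa [sub_add_cancel] at this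
  obtain ⟨c', rfl⟩ := hcu
  have hc' : Nl (mk (ρ.ρ δ e₀ - e₀)) = ((c'⁻¹ : Tˣ) : T) • mk (ρ.ρ δ e₀ - e₀) := by
    conv_rhs => rw [hc]
    rw [smul_smul, Units.inv_mul, one_smul]
  intro τ hτ v
  obtain ⟨t, ht⟩ := hA2 _ (hmemA τ hτ (mk v))
  rw [hc', smul_smul, hmk, ← map_sub, ← map_smul] at ht
  have h1 : (ρ.ρ τ v - v) - (t * ((c'⁻¹ : Tˣ) : T)) • (ρ.ρ δ e₀ - e₀) ∈ mV ρ n :=
    (Submodule.Quotient.eq _).1 ht
  have := Submodule.add_mem_sup
    (Submodule.smul_mem _ (t * ((c'⁻¹ : Tˣ) : T)) (Submodule.mem_span_singleton_self (ρ.ρ δ e₀ - e₀))) h1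
  rwa [add_sub_cancel] at this

end Fermat.Agent.S33
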