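import Fermat.Agent.S33.Line.Level

/-!
# S33 / Line / Main : the line
-/

set_option autoImplicit false
open IsLocalRing

namespace Fermat.Agent.S33

local notation "GQ" => (AlgebraicClosure ℚ ≃ₐ[ℚ] AlgebraicClosure ℚ)

variable {T : Type} [CommRing T] [IsLocalRing T]

attribute [local instance] Fermat.Agent.S32.levelDMA

theorem exists_line [IsNoetherianRing T] [Finite (ResidueField T)] (ρ : GaloisRepAdic T)
    (I D : Subgroup GQ) (hID : ∀ σ ∈ D, ∀ τ ∈ I, σ * τ * σ⁻¹ ∈ I)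
    (hord : ∀ n : ℕ, Ord I (Lev ρ n)) {e₀ : ρ.V}
    (hres : ResLine ρ I e₀) {δ : GQ} (hδ : δ ∈ I)
    (hδ1 : residue T (LinearMap.det (ρ.ρ δ)) ≠ 1)
    (hgen : ∀ τ ∈ I, ∃ i : ℕ,
      residue T (LinearMap.det (ρ.ρ τ)) = residue T (LinearMap.det (ρ.ρ δ)) ^ i) :
    ∃ L : Submodule T ρ.V,
      (∃ b : Module.Basis (Fin 2) T ρ.V, L = Submodule.span T {b 0}) ∧
      (∀ σ ∈ D, ∀ v ∈ L, ρ.ρ σ v ∈ L) ∧
      (∀ σ ∈ I, ∀ v : ρ.V, ρ.ρ σ v - v ∈ L) := by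
  obtain ⟨b, hb⟩ := exists_basis_of_not_mem ρ (hres.apply_sub_not_mem hδ hδ1)
  have key : ∀ τ ∈ I, ∀ v : ρ.V, ρ.ρ τ v - v ∈ Submodule.span T {b 0} := by
    intro τ hτ v
    refine mem_span_of_forall_mem ρ b fun n => ?_
    rw [hb]
    exact level_line ρ I n (hord n) hres hδ hδ1 hgen τ hτ v
  refine ⟨Submodule.span T {b 0}, ⟨b, rfl⟩, ?_, key⟩
  intro σ hσ v hv
  obtain ⟨t, rfl⟩ := Submodule.mem_span_singleton.1 hv
  rw [map_smul]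
  refine Submodule.smul_mem _ _ ?_
  have h1 : ρ.ρ σ (b 0) = ρ.ρ (σ * δ * σ⁻¹) (ρ.ρ σ e₀) - ρ.ρ σ e₀ := by
    rw [hb, map_sub, ← Module.End.mul_apply, ← Module.End.mul_apply, ← map_mul, ← map_mul]
    congr 3
    group
  rw [h1]
  exact key _ (hID σ hσ δ hδ) _

end Fermat.Agent.S33
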